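import Fermat.Agent.S31.Defs

/-!
# S31 piece B (helper22): trace of a power from the characteristic polynomial (rank 2)
-/

set_option autoImplicit false

open Polynomial

namespace Fermat.Agent.S31.H22

open Fermat.Agent.S31

theorem map_powTr {R R' : Type*} [CommRing R] [CommRing R'] (φ : R →+* R') (a d : R) (j : ℕ) :
    φ (powTr a d j) = powTr (φ a) (φ d) j := by
  induction j using Nat.strong_induction_on with
  | _ j ih =>
    match j, ih with
    | 0, _ => simp only [powTr, map_ofNat]
    | 1, _ => simp only [powTr]
    | (j + 2), ih =>
      simp only [powTr, map_sub, map_mul]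
      rw [ih (j + 1) (by omega), ih j (by omega)]

theorem trace_pow_of_charpoly {R : Type*} [CommRing R] {M : Type*} [AddCommGroup M] [Module R M]
    [Module.Free R M] [Module.Finite R M] (hrk : Module.finrank R M = 2) (f : Module.End R M)
    (a d : R) (h : f.charpoly = X ^ 2 - C a * X + C d) (j : ℕ) :
    LinearMap.trace R M (f ^ j) = powTr a d j := by
  rcases subsingleton_or_nontrivial R with hR | hR
  · exact Subsingleton.elim _ _
  -- Cayley–Hamilton
  have hCH : f ^ 2 - a • f + d • (1 : Module.End R M) = 0 := by
    have := LinearMap.aeval_self_charpoly f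
    rw [h] at this
    simpa [Algebra.smul_def, sub_eq_add_neg] using this
  have hrec : ∀ j : ℕ, f ^ (j + 2) = a • f ^ (j + 1) - d • f ^ j := by
    intro j
    have h2 : f ^ 2 = a • f - d • (1 : Module.End R M) := by
      have := hCH
      rw [sub_add_eq_add_sub, sub_eq_zero] at this
      rw [← this]; simp
    calc f ^ (j + 2) = f ^ j * f ^ 2 := by rw [pow_add]
      _ = f ^ j * (a • f - d • (1 : Module.End R M)) := by rw [h2]
      _ = a • f ^ (j + 1) - d • f ^ j := by
          rw [mul_sub, mul_smul_comm, mul_smul_comm, mul_one, pow_succ]
  -- trace of f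
  have htr1 : LinearMap.trace R M f = a := by
    classical
    let b := Module.Free.chooseBasis R M
    have hcard : Fintype.card (Module.Free.ChooseBasisIndex R M) = 2 := by
      rw [← Module.finrank_eq_card_chooseBasisIndex, hrk]
    have : Nonempty (Module.Free.ChooseBasisIndex R M) := by
      rw [← Fintype.card_pos_iff, hcard]; norm_num
    rw [LinearMap.trace_eq_matrix_trace R b f, Matrix.trace_eq_neg_charpoly_coeff,
      LinearMap.charpoly_toMatrix f b, h, hcard]
    simp [coeff_C]
  induction j using Nat.strong_induction_on with
  | _ j ih =>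
    match j, ih with
    | 0, _ =>
      simp only [pow_zero, powTr]
      rw [LinearMap.trace_one, hrk]; norm_num
    | 1, _ => simpa [powTr] using htr1
    | (j + 2), ih =>
      rw [hrec, map_sub, map_smul, map_smul, ih (j + 1) (by omega), ih j (by omega)]
      simp [powTr]

end Fermat.Agent.S31.H22
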