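import Fermat.Agent.S31.Defs

/-!
# S31 piece C (helper22): traces are locally constant modulo `m ^ n`
-/

set_option autoImplicit false

open Polynomial

namespace Fermat.Agent.S31.H22

open Fermat.Agent.S31

/-- coordinates of an element of `I • ⊤` lie in `I` -/
lemma repr_mem_of_mem_smul_top {R : Type*} [CommRing R] {M : Type*} [AddCommGroup M] [Module R M]
    {ι : Type*} (b : Module.Basis ι R M) (I : Ideal R) {x : M}
    (hx : x ∈ I • (⊤ : Submodule R M)) (i : ι) : b.repr x i ∈ I := by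
  refine Submodule.smul_induction_on (p := fun x => b.repr x i ∈ I) hx ?_ ?_
  · intro a ha w _
    rw [map_smul, Finsupp.smul_apply, smul_eq_mul]
    exact I.mul_mem_right _ ha
  · intro x y hx hy
    rw [map_add, Finsupp.add_apply]
    exact I.add_mem hx hy

/-- an endomorphism of a finite free module with image in `I • ⊤` has trace in `I` -/
lemma trace_mem_of_range_le {R : Type*} [CommRing R] {M : Type*} [AddCommGroup M] [Module R M]
    [Module.Free R M] [Module.Finite R M] (I : Ideal R) (f : Module.End R M)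
    (hf : ∀ v, f v ∈ I • (⊤ : Submodule R M)) : LinearMap.trace R M f ∈ I := by
  classical
  let b := Module.Free.chooseBasis R M
  rw [LinearMap.trace_eq_matrix_trace R b f, Matrix.trace]
  refine I.sum_mem fun i _ => ?_
  rw [Matrix.diag_apply, LinearMap.toMatrix_apply]
  exact repr_mem_of_mem_smul_top b I (hf _) i

/-- **C**.  From `GaloisActionIsAdicContinuous`. -/
theorem trace_congr_of_agree {A : Type} [CommRing A] [IsLocalRing A] (ρ : GaloisRepAdic A)
    (n : ℕ) :
    ∃ L : IntermediateField ℚ Qb, FiniteDimensional ℚ L ∧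
      ∀ g g' : GQ, (∀ x ∈ L, g x = g' x) →
        ρ.trace g - ρ.trace g' ∈ IsLocalRing.maximalIdeal A ^ n := by
  obtain ⟨L, hL, h1⟩ := ρ.isAdicContinuous n
  refine ⟨L, hL, fun g g' hgg' => ?_⟩
  have hσ : ∀ x ∈ L, (g'⁻¹ * g) x = x := by
    intro x hx
    rw [AlgEquiv.mul_apply, hgg' x hx]
    exact (g'.symm_apply_apply x)
  have hg : g = g' * (g'⁻¹ * g) := by group
  have key : ρ.ρ g - ρ.ρ g' = ρ.ρ g' * (ρ.ρ (g'⁻¹ * g) - 1) := by
    rw [mul_sub, mul_one, ← map_mul, ← hg]
  have : ρ.trace g - ρ.trace g' = LinearMap.trace A ρ.V (ρ.ρ g' * (ρ.ρ (g'⁻¹ * g) - 1)) := by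
    rw [← key, map_sub]; rfl
  rw [this]
  refine trace_mem_of_range_le _ _ fun v => ?_
  rw [Module.End.mul_apply]
  have h2 : (ρ.ρ (g'⁻¹ * g) - 1) v ∈ (IsLocalRing.maximalIdeal A ^ n) • (⊤ : Submodule A ρ.V) := by
    simpa using h1 _ hσ v
  have h3 : ((IsLocalRing.maximalIdeal A ^ n) • (⊤ : Submodule A ρ.V)).map (ρ.ρ g') ≤
      (IsLocalRing.maximalIdeal A ^ n) • (⊤ : Submodule A ρ.V) := by
    rw [Submodule.map_smul'']
    exact Submodule.smul_mono le_rfl le_top
  exact h3 (Submodule.mem_map_of_mem h2)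

end Fermat.Agent.S31.H22
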