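import Fermat.Agent.S31.Defs
import Fermat.Agent.S31.H22.PowTr
import Fermat.Agent.S31.H22.TraceCont

/-!
# S31 piece E (helper22): assembly

`unramified_of_parts`: from `S30Statement`, `ChebStatement`, `PTS` and the trace criterion (piece A,
taken here as a hypothesis `hA` on the given representation) deduce that `H.ρ` is unramified
outside `S`.
-/

set_option autoImplicit false

open Polynomial

namespace Fermat.Agent.S31.H22

open Fermat.Agent.S31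

/-! ### E0: pulling back powers of the maximal ideal along an injective map from a DVR -/

lemma exists_pow_comap_le {O O' : Type} [CommRing O] [IsDomain O] [IsDiscreteValuationRing O]
    [CommRing O'] [IsLocalRing O'] [IsNoetherianRing O'] (φ : O →+* O')
    (hφ : Function.Injective φ) (n : ℕ) :
    ∃ k : ℕ, ∀ x : O, φ x ∈ IsLocalRing.maximalIdeal O' ^ k → x ∈ IsLocalRing.maximalIdeal O ^ n := by
  by_contra hcon
  push Not at hcon
  obtain ⟨ϖ, hϖ⟩ := IsDiscreteValuationRing.exists_irreducible O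
  have hm : IsLocalRing.maximalIdeal O = Ideal.span {ϖ} := hϖ.maximalIdeal_eq
  -- `φ (ϖ ^ n)` lies in every power of the maximal ideal
  have hall : ∀ k : ℕ, φ (ϖ ^ n) ∈ IsLocalRing.maximalIdeal O' ^ k := by
    intro k
    obtain ⟨x, hx, hxn⟩ := hcon k
    have hx0 : x ≠ 0 := by
      rintro rfl
      exact hxn (Ideal.zero_mem _)
    obtain ⟨a, u, rfl⟩ := IsDiscreteValuationRing.eq_unit_mul_pow_irreducible hx0 hϖ
    have han : a < n := by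
      by_contra h
      push Not at h
      apply hxn
      rw [hm, Ideal.span_singleton_pow, Ideal.mem_span_singleton]
      exact Dvd.dvd.mul_left (pow_dvd_pow ϖ h) _
    have : ϖ ^ n = (ϖ ^ (n - a) * ↑u⁻¹) * (↑u * ϖ ^ a) := by
      have h1 : ϖ ^ n = ϖ ^ (n - a) * ϖ ^ a := by
        rw [← pow_add]; congr 1; omega
      rw [h1]
      have h2 : (↑u⁻¹ : O) * ↑u = 1 := by simp
      calc ϖ ^ (n - a) * ϖ ^ a = ϖ ^ (n - a) * ((↑u⁻¹ : O) * ↑u) * ϖ ^ a := by rw [h2, mul_one]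
        _ = _ := by ring
    rw [this, map_mul]
    exact Ideal.mul_mem_left _ _ hx
  have hzero : φ (ϖ ^ n) = 0 := by
    have h1 : φ (ϖ ^ n) ∈ ⨅ k, IsLocalRing.maximalIdeal O' ^ k := by
      rw [Ideal.mem_iInf]; exact hall
    rw [Ideal.iInf_pow_eq_bot_of_isLocalRing _ (Ideal.IsMaximal.ne_top inferInstance)] at h1
    simpa using h1
  have : ϖ ^ n = 0 := hφ (by rw [hzero, map_zero])
  exact pow_ne_zero n hϖ.ne_zero this

/-! ### E1: approximating traces by Hecke elements -/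

section E1

variable {N : ℕ} [NeZero N] {S : Finset ℕ}

/-- the Hecke element computing the trace of the `j`-th power of a Frobenius at `ℓ` -/
noncomputable def heckePow {ℓ : ℕ} (hℓ : ℓ.Prime) (hℓN : ¬ ℓ ∣ N) (hℓS : ℓ ∉ (↑S : Set ℕ))
    (j : ℕ) : CuspForm.heckeAlgebra N 2 (↑S : Set ℕ) :=
  powTr (CuspForm.heckeAlgebra.T hℓ hℓN hℓS) (ℓ : CuspForm.heckeAlgebra N 2 (↑S : Set ℕ)) j

/-- the Frobenius condition relating a representation over `A` and a character of the Hecke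
algebra -/
def FrobCond {A : Type} [CommRing A] [IsLocalRing A] (ρ : GaloisRepAdic A)
    (φ : CuspForm.heckeAlgebra N 2 (↑S : Set ℕ) →+* A) : Prop :=
  ∀ (ℓ : ℕ) (hℓ : ℓ.Prime) (hℓN : ¬ ℓ ∣ N) (hℓS : ℓ ∉ (↑S : Set ℕ)),
    ∀ B : ValuationSubring Qb, B.LiesOverPrime ℓ →
      ∀ σ : GQ, B.IsFrobeniusAt σ ℓ →
        LinearMap.charpoly (ρ.ρ σ) =
          X ^ 2 - C (φ (CuspForm.heckeAlgebra.T hℓ hℓN hℓS)) * X + C ((ℓ : A))

lemma trace_sub_hecke_mem {A : Type} [CommRing A] [IsLocalRing A] (ρ : GaloisRepAdic A)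
    (φ : CuspForm.heckeAlgebra N 2 (↑S : Set ℕ) →+* A) (hfrob : FrobCond ρ φ)
    (n : ℕ) (L : IntermediateField ℚ Qb)
    (hL : ∀ g g' : GQ, (∀ x ∈ L, g x = g' x) →
      ρ.trace g - ρ.trace g' ∈ IsLocalRing.maximalIdeal A ^ n)
    (g : GQ) {ℓ : ℕ} (hℓ : ℓ.Prime) (hℓN : ¬ ℓ ∣ N) (hℓS : ℓ ∉ (↑S : Set ℕ))
    (B : ValuationSubring Qb) (hB : B.LiesOverPrime ℓ) (σ : GQ) (hσ : B.IsFrobeniusAt σ ℓ)
    (j : ℕ) (hj : ∀ x ∈ L, (σ ^ j) x = g x) :
    ρ.trace g - φ (heckePow hℓ hℓN hℓS j) ∈ IsLocalRing.maximalIdeal A ^ n := by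
  have h1 := hL g (σ ^ j) (fun x hx => (hj x hx).symm)
  have h2 : ρ.trace (σ ^ j) = φ (heckePow hℓ hℓN hℓS j) := by
    rw [heckePow, map_powTr, map_natCast]
    show LinearMap.trace A ρ.V (ρ.ρ (σ ^ j)) = _
    rw [map_pow]
    exact trace_pow_of_charpoly ρ.finrank_eq _ _ _ (hfrob ℓ hℓ hℓN hℓS B hB σ hσ) j
  rwa [h2] at h1

end E1

/-! ### E3: the per-point lemma -/

section E3

variable {p : ℕ} {N : ℕ} [NeZero N] {S : Finset ℕ}

/-- `τ` lies in an inertia group at a prime outside `S`. -/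
def IsInertialOutside (S : Finset ℕ) (τ : GQ) : Prop :=
  ∃ q : ℕ, q.Prime ∧ q ∉ S ∧ ∃ B : ValuationSubring Qb, B.LiesOverPrime q ∧
    τ ∈ B.inertiaSubgroupIn ℚ

lemma exists_field_of_point (h30 : S30Statement) (hp : p.Prime) (hpS : p ∈ S)
    (hNS : ∀ q : ℕ, q.Prime → q ∣ N → q ∈ S)
    (P : PadicPoint p (CuspForm.heckeAlgebra N 2 (↑S : Set ℕ))) (n' : ℕ) :
    ∃ L : IntermediateField ℚ Qb, FiniteDimensional ℚ L ∧
      ∀ (g τ : GQ), IsInertialOutside S τ →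
      ∀ {ℓ : ℕ} (hℓ : ℓ.Prime) (hℓN : ¬ ℓ ∣ N) (hℓS : ℓ ∉ (↑S : Set ℕ))
        (B : ValuationSubring Qb) (_ : B.LiesOverPrime ℓ) (σ : GQ) (_ : B.IsFrobeniusAt σ ℓ)
        (j : ℕ) (_ : ∀ x ∈ L, (σ ^ j) x = g x)
        {ℓ' : ℕ} (hℓ' : ℓ'.Prime) (hℓN' : ¬ ℓ' ∣ N) (hℓS' : ℓ' ∉ (↑S : Set ℕ))
        (B' : ValuationSubring Qb) (_ : B'.LiesOverPrime ℓ') (σ' : GQ)
        (_ : B'.IsFrobeniusAt σ' ℓ')
        (j' : ℕ) (_ : ∀ x ∈ L, (σ' ^ j') x = (g * τ) x),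
        P.χ (heckePow hℓ hℓN hℓS j - heckePow hℓ' hℓN' hℓS' j') ∈
          IsLocalRing.maximalIdeal P.O ^ n' := by
  have : Fact p.Prime := ⟨hp⟩
  obtain ⟨O'', i1, i2, i3, i4, i5, i6, i7, i8, i9, hinj, ρ'', hfrob, hunr⟩ :=
    h30 p N S hpS hNS P.O P.hp P.χ
  obtain ⟨k, hk⟩ := exists_pow_comap_le (algebraMap P.O O'') hinj n'
  obtain ⟨L, hLfin, hL⟩ := trace_congr_of_agree ρ'' k
  refine ⟨L, hLfin, ?_⟩
  intro g τ hτ ℓ hℓ hℓN hℓS B hB σ hσ j hj ℓ' hℓ' hℓN' hℓS' B' hB' σ' hσ' j' hj'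
  have hfc : FrobCond ρ'' ((algebraMap P.O O'').comp P.χ) := by
    intro ℓ hℓ hℓN hℓS B hB σ hσ
    exact hfrob ℓ hℓ hℓN hℓS B hB σ hσ
  have e1 := trace_sub_hecke_mem ρ'' _ hfc k L hL g hℓ hℓN hℓS B hB σ hσ j hj
  have e2 := trace_sub_hecke_mem ρ'' _ hfc k L hL (g * τ) hℓ' hℓN' hℓS' B' hB' σ' hσ' j' hj'
  -- `ρ''` is unramified at `τ`
  obtain ⟨q, hq, hqS, Bq, hBq, hτq⟩ := hτ
  have hqN : ¬ q ∣ N := fun h => hqS (hNS q hq h)
  have hqp : q ≠ p := fun h => hqS (h ▸ hpS)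
  have hτ1 : ρ''.ρ τ = 1 := hunr q hq hqN hqp Bq hBq τ hτq
  have htr : ρ''.trace (g * τ) = ρ''.trace g := by
    show LinearMap.trace O'' ρ''.V (ρ''.ρ (g * τ)) = LinearMap.trace O'' ρ''.V (ρ''.ρ g)
    rw [map_mul, hτ1, mul_one]
  rw [htr] at e2
  apply hk
  have : algebraMap P.O O'' (P.χ (heckePow hℓ hℓN hℓS j - heckePow hℓ' hℓN' hℓS' j')) =
      (ρ''.trace g - ((algebraMap P.O O'').comp P.χ) (heckePow hℓ' hℓN' hℓS' j')) -
      (ρ''.trace g - ((algebraMap P.O O'').comp P.χ) (heckePow hℓ hℓN hℓS j)) := by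
    simp only [RingHom.comp_apply, map_sub]
    ring
  rw [this]
  exact Ideal.sub_mem _ e2 e1

end E3

/-! ### finite suprema of finite-dimensional intermediate fields -/

lemma exists_sup_of_list {α : Type*} (F : List α) (L : α → IntermediateField ℚ Qb)
    (hL : ∀ a, FiniteDimensional ℚ (L a)) :
    ∃ E : IntermediateField ℚ Qb, FiniteDimensional ℚ E ∧ ∀ a ∈ F, L a ≤ E := by
  induction F with
  | nil => exact ⟨⊥, inferInstance, by simp⟩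
  | cons a F ih =>
    obtain ⟨E, hE, hle⟩ := ih
    have := hL a
    refine ⟨L a ⊔ E, IntermediateField.finiteDimensional_sup _ _, ?_⟩
    intro b hb
    rcases List.mem_cons.mp hb with rfl | hb
    · exact le_sup_left
    · exact (hle b hb).trans le_sup_right

/-! ### E: the main argument -/

section Main

variable {p : ℕ} {N : ℕ} [NeZero N] {S : Finset ℕ}
  {𝒪 : Type} [CommRing 𝒪] [IsDomain 𝒪] [IsDiscreteValuationRing 𝒪]
  [IsAdicComplete (IsLocalRing.maximalIdeal 𝒪) 𝒪]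
  {θ : CuspForm.heckeAlgebra N 2 (↑S : Set ℕ) →+* IsLocalRing.ResidueField 𝒪}
  {T : Type} [CommRing T] [IsLocalRing T] [IsNoetherianRing T]
  [IsAdicComplete (IsLocalRing.maximalIdeal T) T] [Algebra 𝒪 T] [IsLocalHom (algebraMap 𝒪 T)]
  [Module.Finite 𝒪 T] [Module.Free 𝒪 T]

/-- traces are invariant under right multiplication by inertia outside `S` -/
theorem trace_mul_inertia (h30 : S30Statement) (hcheb : ChebStatement) (hp : p.Prime)
    (hp𝒪 : (p : 𝒪) ∈ IsLocalRing.maximalIdeal 𝒪) (hpS : p ∈ S)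
    (hNS : ∀ q : ℕ, q.Prime → q ∣ N → q ∈ S)
    (hPTS : PTS p (CuspForm.heckeAlgebra N 2 (↑S : Set ℕ)))
    (H : CuspForm.HeckeGaloisRepDatum N (↑S : Set ℕ) 𝒪 θ T)
    (τ : GQ) (hτ : IsInertialOutside S τ) (g : GQ) :
    H.ρ.trace (g * τ) = H.ρ.trace g := by
  -- Krull intersection
  rw [← sub_eq_zero]
  have hK : (⨅ n, IsLocalRing.maximalIdeal T ^ n) = ⊥ :=
    Ideal.iInf_pow_eq_bot_of_isLocalRing _ (Ideal.IsMaximal.ne_top inferInstance)
  suffices h : H.ρ.trace (g * τ) - H.ρ.trace g ∈ ⨅ n, IsLocalRing.maximalIdeal T ^ n by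
    rw [hK] at h; simpa using h
  rw [Ideal.mem_iInf]
  intro n
  -- the prime `m` of the Hecke algebra
  set m : Ideal (CuspForm.heckeAlgebra N 2 (↑S : Set ℕ)) :=
    Ideal.comap H.π (IsLocalRing.maximalIdeal T) with hm
  have hmprime : m.IsPrime := Ideal.comap_isPrime _ _
  have hpT : (p : T) ∈ IsLocalRing.maximalIdeal T := by
    have h1 : (p : T) = algebraMap 𝒪 T (p : 𝒪) := by simp
    rw [h1, IsLocalRing.mem_maximalIdeal, mem_nonunits_iff]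
    intro hu
    exact (IsLocalRing.mem_maximalIdeal _).mp hp𝒪 (isUnit_of_map_unit (algebraMap 𝒪 T) _ hu)
  have hpm : (p : CuspForm.heckeAlgebra N 2 (↑S : Set ℕ)) ∈ m := by
    rw [hm, Ideal.mem_comap, map_natCast]; exact hpT
  obtain ⟨F, n', hF⟩ := hPTS m hmprime hpm n
  -- fields
  have hpt := fun P : PadicPoint p (CuspForm.heckeAlgebra N 2 (↑S : Set ℕ)) =>
    exists_field_of_point h30 hp hpS hNS P n'
  choose LP hLPfin hLP using hpt
  obtain ⟨E₁, hE₁fin, hE₁⟩ := exists_sup_of_list F LP hLPfin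
  obtain ⟨L₀, hL₀fin, hL₀⟩ := trace_congr_of_agree H.ρ n
  have := hE₁fin
  have := hL₀fin
  set E : IntermediateField ℚ Qb := L₀ ⊔ E₁ with hE
  have hEfin : FiniteDimensional ℚ E := IntermediateField.finiteDimensional_sup _ _
  -- Frobenius data for `g` and `g * τ`
  obtain ⟨ℓ, B, σ, k, j, hℓ, hℓS, hB, hσ, -, -, hj⟩ := hcheb E hEfin g S
  obtain ⟨ℓ', B', σ', k', j', hℓ', hℓS', hB', hσ', -, -, hj'⟩ := hcheb E hEfin (g * τ) S
  have hℓN : ¬ ℓ ∣ N := fun h => hℓS (hNS ℓ hℓ h)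
  have hℓN' : ¬ ℓ' ∣ N := fun h => hℓS' (hNS ℓ' hℓ' h)
  have hℓS1 : ℓ ∉ (↑S : Set ℕ) := by simpa using hℓS
  have hℓS1' : ℓ' ∉ (↑S : Set ℕ) := by simpa using hℓS'
  have hL₀E : L₀ ≤ E := le_sup_left
  have hE₁E : E₁ ≤ E := le_sup_right
  -- approximation for `H.ρ`
  have hfc : FrobCond H.ρ H.π := fun ℓ hℓ hℓN hℓS B hB σ hσ =>
    H.charpoly_frob ℓ hℓ hℓN hℓS B hB σ hσ
  have e1 := trace_sub_hecke_mem H.ρ H.π hfc n L₀ hL₀ g hℓ hℓN hℓS1 B hB σ hσ j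
    (fun x hx => hj x (hL₀E hx))
  have e2 := trace_sub_hecke_mem H.ρ H.π hfc n L₀ hL₀ (g * τ) hℓ' hℓN' hℓS1' B' hB' σ' hσ' j'
    (fun x hx => hj' x (hL₀E hx))
  -- the difference of the Hecke elements lies in `m ^ n`
  have hdiff : heckePow hℓ hℓN hℓS1 j - heckePow hℓ' hℓN' hℓS1' j' ∈ m ^ n := by
    apply hF
    intro P hP
    exact hLP P g τ hτ hℓ hℓN hℓS1 B hB σ hσ j (fun x hx => hj x (hE₁E (hE₁ P hP hx)))
      hℓ' hℓN' hℓS1' B' hB' σ' hσ' j' (fun x hx => hj' x (hE₁E (hE₁ P hP hx)))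
  have hπ : H.π (heckePow hℓ hℓN hℓS1 j - heckePow hℓ' hℓN' hℓS1' j') ∈
      IsLocalRing.maximalIdeal T ^ n := by
    have h1 : (m ^ n).map H.π ≤ IsLocalRing.maximalIdeal T ^ n := by
      rw [Ideal.map_pow]
      exact Ideal.pow_right_mono (Ideal.map_comap_le) n
    exact h1 (Ideal.mem_map_of_mem _ hdiff)
  have : H.ρ.trace (g * τ) - H.ρ.trace g =
      (H.ρ.trace (g * τ) - H.π (heckePow hℓ' hℓN' hℓS1' j')) -
      (H.ρ.trace g - H.π (heckePow hℓ hℓN hℓS1 j)) -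
      H.π (heckePow hℓ hℓN hℓS1 j - heckePow hℓ' hℓN' hℓS1' j') := by
    rw [map_sub]; ring
  rw [this]
  exact Ideal.sub_mem _ (Ideal.sub_mem _ e2 e1) hπ

/-- **E** with the trace criterion (piece A) as a hypothesis on `H.ρ`. -/
theorem unramified_of_parts_of_criterion (h30 : S30Statement) (hcheb : ChebStatement)
    (hp : p.Prime)
    (hp𝒪 : (p : 𝒪) ∈ IsLocalRing.maximalIdeal 𝒪) (hpS : p ∈ S)
    (hNS : ∀ q : ℕ, q.Prime → q ∣ N → q ∈ S)
    (hPTS : PTS p (CuspForm.heckeAlgebra N 2 (↑S : Set ℕ)))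
    (H : CuspForm.HeckeGaloisRepDatum N (↑S : Set ℕ) 𝒪 θ T)
    (hA : ∀ τ : GQ, (∀ g : GQ, H.ρ.trace (g * τ) = H.ρ.trace g) → H.ρ.ρ τ = 1)
    (q : ℕ) (hq : q.Prime) (hqS : q ∉ S) :
    H.ρ.IsUnramifiedAt q := by
  intro P hP τ hτ
  exact hA τ fun g =>
    trace_mul_inertia h30 hcheb hp hp𝒪 hpS hNS hPTS H τ ⟨q, hq, hqS, P, hP, hτ⟩ g

end Main

end Fermat.Agent.S31.H22
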