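import Fermat.Agent.S31.H22.Final
import Fermat.Agent.S31.H862.Reduced

/-!
# S31 from S30 alone (row-lead helper22)

`result_of_S30 : S30Statement → <frozen S31>`.  All other inputs are on main:
CHEB Tier 1 (`Lib.Cheb.H943`), S22, SS (`H862.heckeAlgebra_isReduced`, Petersson),
A (`H202.trace_criterion`), D (`H262.pts_of_reduced`), B/C/E (`H22`).
-/

set_option autoImplicit false

namespace Fermat.Agent.S31.H22

open Fermat.Agent.S31

theorem ssStatement : SSStatement :=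
  fun N _ S hNS => Fermat.Agent.S31.H862.heckeAlgebra_isReduced N S hNS

section

variable {p : ℕ} {N : ℕ} [NeZero N] {S : Finset ℕ}
  {𝒪 : Type} [CommRing 𝒪] [IsDomain 𝒪] [IsDiscreteValuationRing 𝒪]
  [IsAdicComplete (IsLocalRing.maximalIdeal 𝒪) 𝒪]
  {θ : CuspForm.heckeAlgebra N 2 (↑S : Set ℕ) →+* IsLocalRing.ResidueField 𝒪}
  {T : Type} [CommRing T] [IsLocalRing T] [IsNoetherianRing T]
  [IsAdicComplete (IsLocalRing.maximalIdeal T) T] [Algebra 𝒪 T] [IsLocalHom (algebraMap 𝒪 T)]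
  [Module.Finite 𝒪 T] [Module.Free 𝒪 T]

/-- **S31 from S30.** -/
theorem result_of_S30 (h30 : S30Statement) (hp : p.Prime)
    (hp𝒪 : (p : 𝒪) ∈ IsLocalRing.maximalIdeal 𝒪) (hpS : p ∈ S)
    (hNS : ∀ q : ℕ, q.Prime → q ∣ N → q ∈ S)
    (H : CuspForm.HeckeGaloisRepDatum N (↑S : Set ℕ) 𝒪 θ T)
    (q : ℕ) (hq : q.Prime) (hqS : q ∉ S) :
    H.ρ.IsUnramifiedAt q :=
  result_of_S30_SS h30 ssStatement hp hp𝒪 hpS hNS H q hq hqS

end

end Fermat.Agent.S31.H22
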