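import Mathlib
import Fermat.Prelude.Def_CuspForm_HeckeAlgebra

/-!
# S31 piece SS, algebraic half (helper22): anisotropic Hecke-symmetric pairing ⟹ reduced

`PeterssonData N` is the ONLY thing the analytic owners of piece SS have to deliver:
a biadditive pairing `B` on `S₂(Γ₀(N))` with `B f f = 0 → f = 0` for which every `T_ℓ` (`ℓ ∤ N`)
is symmetric.  (No linearity over `ℂ`, no positivity, no conjugate symmetry is needed.)

`isReduced_of_petersson` : `PeterssonData N` ⟹ `IsReduced (heckeAlgebra N 2 S)` whenever `S` contains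
the primes dividing `N`.
-/

set_option autoImplicit false

namespace Fermat.Agent.S31.H22

/-- The interface of the analytic part of SS. -/
structure PeterssonData (N : ℕ) [NeZero N] where
  /-- the pairing (e.g. the Petersson inner product) -/
  B : CuspForm (CongruenceSubgroup.Gamma0 N) 2 →+ CuspForm (CongruenceSubgroup.Gamma0 N) 2 →+ ℂ
  /-- anisotropy -/
  definite : ∀ f, B f f = 0 → f = 0
  /-- `T_ℓ` is symmetric for `ℓ ∤ N` -/
  symm_T : ∀ (ℓ : ℕ) (hℓ : ℓ.Prime) (hℓN : ¬ ℓ ∣ N)
    (f g : CuspForm (CongruenceSubgroup.Gamma0 N) 2),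
    B (CuspForm.heckeTLin 2 hℓ hℓN f) g = B f (CuspForm.heckeTLin 2 hℓ hℓN g)

section

variable {N : ℕ} [NeZero N]

/-- every element of the anemic Hecke algebra is symmetric for `B` -/
theorem symm_of_mem_heckeAlgebra (P : PeterssonData N) (S : Set ℕ)
    (hNS : ∀ q : ℕ, q.Prime → q ∣ N → q ∈ S)
    {t : Module.End ℂ (CuspForm (CongruenceSubgroup.Gamma0 N) 2)}
    (ht : t ∈ CuspForm.heckeAlgebra N 2 S) (f g : CuspForm (CongruenceSubgroup.Gamma0 N) 2) :
    P.B (t f) g = P.B f (t g) := by
  induction ht using Algebra.adjoin_induction generalizing f g with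
  | mem x hx =>
    rcases hx with ⟨ℓ, hℓ, hℓN, -, rfl⟩ | ⟨q, hqN, hq, hqS, rfl⟩
    · exact P.symm_T ℓ hℓ hℓN f g
    · exact absurd (hNS q hq hqN) hqS
  | algebraMap r =>
    simp only [Algebra.algebraMap_eq_smul_one, LinearMap.smul_apply, Module.End.one_apply]
    rw [map_zsmul, map_zsmul, AddMonoidHom.coe_smul, Pi.smul_apply]
  | add x y _ _ hx hy =>
    rw [LinearMap.add_apply, LinearMap.add_apply, map_add, map_add, AddMonoidHom.add_apply,
      hx, hy]
  | mul x y hxm hym hx hy =>
    have hcomm : x * y = y * x := by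
      have := mul_comm (⟨x, hxm⟩ : CuspForm.heckeAlgebra N 2 S) ⟨y, hym⟩
      exact congrArg Subtype.val this
    rw [Module.End.mul_apply, hx, hy, ← Module.End.mul_apply, hcomm]

/-- **SS from the analytic input.** -/
theorem isReduced_of_petersson (P : PeterssonData N) (S : Set ℕ)
    (hNS : ∀ q : ℕ, q.Prime → q ∣ N → q ∈ S) : IsReduced (CuspForm.heckeAlgebra N 2 S) := by
  -- a symmetric endomorphism with `y * y = 0` vanishes
  have hsq : ∀ y : Module.End ℂ (CuspForm (CongruenceSubgroup.Gamma0 N) 2),
      y ∈ CuspForm.heckeAlgebra N 2 S → y * y = 0 → y = 0 := by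
    intro y hy hyy
    refine LinearMap.ext fun f => ?_
    apply P.definite
    rw [symm_of_mem_heckeAlgebra P S hNS hy, ← Module.End.mul_apply, hyy]
    simp
  -- nilpotent elements vanish, by strong induction on the exponent
  have hnil : ∀ n : ℕ, ∀ x : Module.End ℂ (CuspForm (CongruenceSubgroup.Gamma0 N) 2),
      x ∈ CuspForm.heckeAlgebra N 2 S → x ^ n = 0 → x = 0 := by
    intro n
    induction n using Nat.strong_induction_on with
    | _ n ih =>
      intro x hx hxn
      rcases Nat.lt_or_ge n 2 with hn | hn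
      · interval_cases n
        · -- `1 = 0`
          rw [pow_zero] at hxn
          calc x = x * 1 := (mul_one x).symm
            _ = 0 := by rw [hxn, mul_zero]
        · simpa using hxn
      · -- `m = ⌈n/2⌉ < n`
        set m := (n + 1) / 2 with hm
        have hmn : m < n := by omega
        have h2m : n ≤ m + m := by omega
        have hy : x ^ m * x ^ m = 0 := by
          rw [← pow_add]
          obtain ⟨c, hc⟩ := Nat.exists_eq_add_of_le h2m
          rw [hc, pow_add, hxn, zero_mul]
        exact ih m hmn x hx (hsq _ (Subalgebra.pow_mem _ hx m) hy)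
  refine ⟨fun x hx => ?_⟩
  obtain ⟨n, hn⟩ := hx
  apply Subtype.ext
  refine hnil n x.1 x.2 ?_
  have := congrArg Subtype.val hn
  simpa using this

end

end Fermat.Agent.S31.H22
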