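import Fermat.Agent.S31.H22.Assembly
import Fermat.Agent.S31.H22.SSAlg
import Fermat.Agent.S31.H202.PieceA
import Fermat.Agent.S31.H262.Points
import Fermat.Agent.Lib.Cheb.H943.End
import Fermat.Agent.S22

/-!
# S31: final glue (row-lead helper22)

`result_of_S30_SS` : the frozen statement S31 from the two remaining inputs
* `h30 : S30Statement`  — the frozen statement S30 (row S30, Galois tower);
* `hSS` : the anemic Hecke algebra is reduced (piece SS),
and `result_of_S30_petersson`, the same with SS replaced by its analytic core `PeterssonData`.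

Everything else is on main: CHEB Tier 1 (`Lib.Cheb.H943.frobeniusDivisionStatement`), S22,
piece A (`H202.trace_criterion`), piece D (`H262.pts_of_reduced`), pieces B, C, E (`H22`).
-/

set_option autoImplicit false

namespace Fermat.Agent.S31.H22

open Fermat.Agent.S31

/-- piece SS as a `Prop` -/
def SSStatement : Prop :=
  ∀ (N : ℕ) [NeZero N] (S : Set ℕ), (∀ q : ℕ, q.Prime → q ∣ N → q ∈ S) →
    IsReduced (CuspForm.heckeAlgebra N 2 S)

theorem ssStatement_of_petersson (hPet : ∀ (N : ℕ) [NeZero N], Nonempty (PeterssonData N)) :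
    SSStatement :=
  fun N _ S hNS => isReduced_of_petersson (hPet N).some S hNS

section

variable {p : ℕ} {N : ℕ} [NeZero N] {S : Finset ℕ}
  {𝒪 : Type} [CommRing 𝒪] [IsDomain 𝒪] [IsDiscreteValuationRing 𝒪]
  [IsAdicComplete (IsLocalRing.maximalIdeal 𝒪) 𝒪]
  {θ : CuspForm.heckeAlgebra N 2 (↑S : Set ℕ) →+* IsLocalRing.ResidueField 𝒪}
  {T : Type} [CommRing T] [IsLocalRing T] [IsNoetherianRing T]
  [IsAdicComplete (IsLocalRing.maximalIdeal T) T] [Algebra 𝒪 T] [IsLocalHom (algebraMap 𝒪 T)]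
  [Module.Finite 𝒪 T] [Module.Free 𝒪 T]

theorem result_of_S30_SS (h30 : S30Statement) (hSS : SSStatement) (hp : p.Prime)
    (hp𝒪 : (p : 𝒪) ∈ IsLocalRing.maximalIdeal 𝒪) (hpS : p ∈ S)
    (hNS : ∀ q : ℕ, q.Prime → q ∣ N → q ∈ S)
    (H : CuspForm.HeckeGaloisRepDatum N (↑S : Set ℕ) 𝒪 θ T)
    (q : ℕ) (hq : q.Prime) (hqS : q ∉ S) :
    H.ρ.IsUnramifiedAt q := by
  have hfin : Module.Finite ℤ (CuspForm.heckeAlgebra N 2 (↑S : Set ℕ)) :=
    Fermat.Agent.S22.result N 2 (↑S : Set ℕ)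
  have hred : IsReduced (CuspForm.heckeAlgebra N 2 (↑S : Set ℕ)) :=
    hSS N (↑S : Set ℕ) (fun q hq hqN => by simpa using hNS q hq hqN)
  have hPTS : PTS p (CuspForm.heckeAlgebra N 2 (↑S : Set ℕ)) :=
    H262.pts_of_reduced p hp _
  exact unramified_of_parts_of_criterion h30
    Fermat.Agent.Lib.Cheb.H943.frobeniusDivisionStatement hp hp𝒪 hpS hNS hPTS H
    (fun τ h => H202.trace_criterion H.ρ H.residual_absIrr τ h) q hq hqS

theorem result_of_S30_petersson (h30 : S30Statement)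
    (hPet : ∀ (N : ℕ) [NeZero N], Nonempty (PeterssonData N)) (hp : p.Prime)
    (hp𝒪 : (p : 𝒪) ∈ IsLocalRing.maximalIdeal 𝒪) (hpS : p ∈ S)
    (hNS : ∀ q : ℕ, q.Prime → q ∣ N → q ∈ S)
    (H : CuspForm.HeckeGaloisRepDatum N (↑S : Set ℕ) 𝒪 θ T)
    (q : ℕ) (hq : q.Prime) (hqS : q ∉ S) :
    H.ρ.IsUnramifiedAt q :=
  result_of_S30_SS h30 (ssStatement_of_petersson hPet) hp hp𝒪 hpS hNS H q hq hqS

end

end Fermat.Agent.S31.H22
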