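import Fermat.Agent.S31.H22.FinalS30
import Fermat.Agent.S30.H330.AdicChain
import Fermat.Agent.S29.H222.ESKAdapterPGI
import Fermat.Agent.S29.H942.K3Fin
import Fermat.Agent.S18.H694.CoreFamilyOfNodes

/-!
# S31 directly from the S18 hub (row-lead helper22)

The frozen statement S31 from the single open input of Tower A, in two shapes:

* `result_of_core  : S29.H222.CoreFamily → <frozen S31>` (the S18 hub for all `m` prime to `ℓ`);
* `result_of_nodes : node_mod → node_alg → <frozen S31>` (the two open nodes of the S18 skeleton,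
  exact shapes of `S18.H694.coreFamily_of_nodes`).

Chain (all on main): `H694.coreFamily_of_nodes` → `H222.esStatement_of_core` (= torsion relations
(T)) → `H330.result_of_k3fin` with `H942.finStatement` (= S30) → `H22.result_of_S30` (= S31).
So `Fermat/Agent/S31.lean` does not have to wait for `Fermat/Agent/S30.lean`.
-/

set_option autoImplicit false

namespace Fermat.Agent.S31.H22

open Fermat.Agent.S31

/-- The torsion relations (T) of the adic module layer of S30 from the S18 hub. -/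
theorem torsionRelations_of_core (hcore : Fermat.Agent.S29.H222.CoreFamily)
    (N : ℕ) [NeZero N] (p : ℕ) : Fermat.Agent.S30.H330.TorsionRelations N p :=
  Fermat.Agent.S29.H222.esStatement_of_core hcore N p

/-- **S30 from the S18 hub.** -/
theorem s30Statement_of_core (hcore : Fermat.Agent.S29.H222.CoreFamily) : S30Statement :=
  Fermat.Agent.S30.H330.result_of_k3fin
    (fun N _ p hp n =>
      haveI : NeZero (p ^ n) := ⟨pow_ne_zero n hp.out.ne_zero⟩
      Fermat.Agent.S29.H942.finStatement (N := N) (p := p ^ n))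
    (fun N _ p _ => torsionRelations_of_core hcore N p)

section

variable {p : ℕ} {N : ℕ} [NeZero N] {S : Finset ℕ}
  {𝒪 : Type} [CommRing 𝒪] [IsDomain 𝒪] [IsDiscreteValuationRing 𝒪]
  [IsAdicComplete (IsLocalRing.maximalIdeal 𝒪) 𝒪]
  {θ : CuspForm.heckeAlgebra N 2 (↑S : Set ℕ) →+* IsLocalRing.ResidueField 𝒪}
  {T : Type} [CommRing T] [IsLocalRing T] [IsNoetherianRing T]
  [IsAdicComplete (IsLocalRing.maximalIdeal T) T] [Algebra 𝒪 T] [IsLocalHom (algebraMap 𝒪 T)]
  [Module.Finite 𝒪 T] [Module.Free 𝒪 T]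

/-- **S31 from the S18 hub.** -/
theorem result_of_core (hcore : Fermat.Agent.S29.H222.CoreFamily) (hp : p.Prime)
    (hp𝒪 : (p : 𝒪) ∈ IsLocalRing.maximalIdeal 𝒪) (hpS : p ∈ S)
    (hNS : ∀ q : ℕ, q.Prime → q ∣ N → q ∈ S)
    (H : CuspForm.HeckeGaloisRepDatum N (↑S : Set ℕ) 𝒪 θ T)
    (q : ℕ) (hq : q.Prime) (hqS : q ∉ S) :
    H.ρ.IsUnramifiedAt q :=
  result_of_S30 (s30Statement_of_core hcore) hp hp𝒪 hpS hNS H q hq hqS

/-- **S31 from the two open nodes of the S18 skeleton.** -/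
theorem result_of_nodes
    (node_mod : ∀ (M : ℕ) [NeZero M] {ℓ : ℕ} [Fact ℓ.Prime], ¬ ℓ ∣ M →
      ∀ A : ValuationSubring Fermat.Agent.S18.Qb, A.LiesOverPrime ℓ →
        Fermat.Agent.S18.Mod.GoodModelStatement M ℓ A)
    (node_alg : ∀ M : ℕ, Fermat.Agent.S18.Mod.AlgStatement M)
    (hp : p.Prime)
    (hp𝒪 : (p : 𝒪) ∈ IsLocalRing.maximalIdeal 𝒪) (hpS : p ∈ S)
    (hNS : ∀ q : ℕ, q.Prime → q ∣ N → q ∈ S)
    (H : CuspForm.HeckeGaloisRepDatum N (↑S : Set ℕ) 𝒪 θ T)
    (q : ℕ) (hq : q.Prime) (hqS : q ∉ S) :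
    H.ρ.IsUnramifiedAt q :=
  result_of_core (Fermat.Agent.S18.H694.coreFamily_of_nodes node_mod node_alg)
    hp hp𝒪 hpS hNS H q hq hqS

end

end Fermat.Agent.S31.H22
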