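import Fermat.Agent.S31.H22.Assembly
import Fermat.Agent.S31.H934.D4
import Fermat.Agent.S31.H924.D3
import Fermat.Agent.Lib.Cheb.H943.End
import Fermat.Agent.S22

/-!
# S31 final glue (row-lead helper22), parametrised by the still-open pieces

`result_of_open` : frozen S31 statement from
* `h30 : S30Statement` (row S30),
* `hA` : trace criterion (piece A),
* `hD1`, `hD2` : pieces D1, D2 in the shapes of `H934/D4.lean`,
* `hSS` : the anemic Hecke algebra is reduced (piece SS).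
CHEB Tier 1, S22, B, C, D3, D4, E are used from main.
-/

set_option autoImplicit false

namespace Fermat.Agent.S31.H22

open Fermat.Agent.S31

/-- piece A as a `Prop` -/
def TraceCriterion : Prop :=
  ∀ {T : Type} [CommRing T] [IsLocalRing T] (ρ : GaloisRepAdic T),
    ρ.residual.IsAbsolutelyIrreducible → ∀ τ : GQ,
      (∀ g : GQ, ρ.trace (g * τ) = ρ.trace g) → ρ.ρ τ = 1

/-- piece D1 as a `Prop` -/
def D1All : Prop :=
  ∀ (R' : Type) [CommRing R'] [Module.Finite ℤ R'] [IsReduced R'] [IsAddTorsionFree R'],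
    H934.D1Statement R'

/-- piece SS as a `Prop` -/
def SSAll : Prop :=
  ∀ (N : ℕ) [NeZero N] (S : Set ℕ), (∀ q : ℕ, q.Prime → q ∣ N → q ∈ S) →
    IsReduced (CuspForm.heckeAlgebra N 2 S)

theorem d3Statement (p : ℕ) (hp : p.Prime) : H934.D3Statement p :=
  fun K _ _ => H924.exists_forall_natCast_pow_dvd' K p hp.ne_zero

section

variable {p : ℕ} {N : ℕ} [NeZero N] {S : Finset ℕ}
  {𝒪 : Type} [CommRing 𝒪] [IsDomain 𝒪] [IsDiscreteValuationRing 𝒪]
  [IsAdicComplete (IsLocalRing.maximalIdeal 𝒪) 𝒪]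
  {θ : CuspForm.heckeAlgebra N 2 (↑S : Set ℕ) →+* IsLocalRing.ResidueField 𝒪}
  {T : Type} [CommRing T] [IsLocalRing T] [IsNoetherianRing T]
  [IsAdicComplete (IsLocalRing.maximalIdeal T) T] [Algebra 𝒪 T] [IsLocalHom (algebraMap 𝒪 T)]
  [Module.Finite 𝒪 T] [Module.Free 𝒪 T]

theorem result_of_open (h30 : S30Statement) (hA : TraceCriterion) (hD1 : D1All)
    (hD2 : ∀ p : ℕ, p.Prime → H934.D2Statement p) (hSS : SSAll) (hp : p.Prime)
    (hp𝒪 : (p : 𝒪) ∈ IsLocalRing.maximalIdeal 𝒪) (hpS : p ∈ S)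
    (hNS : ∀ q : ℕ, q.Prime → q ∣ N → q ∈ S)
    (H : CuspForm.HeckeGaloisRepDatum N (↑S : Set ℕ) 𝒪 θ T)
    (q : ℕ) (hq : q.Prime) (hqS : q ∉ S) :
    H.ρ.IsUnramifiedAt q := by
  have hfin : Module.Finite ℤ (CuspForm.heckeAlgebra N 2 (↑S : Set ℕ)) :=
    Fermat.Agent.S22.result N 2 (↑S : Set ℕ)
  have hred : IsReduced (CuspForm.heckeAlgebra N 2 (↑S : Set ℕ)) :=
    hSS N (↑S : Set ℕ) (fun q hq hqN => by simpa using hNS q hq hqN)
  have hPTS : PTS p (CuspForm.heckeAlgebra N 2 (↑S : Set ℕ)) :=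
    H934.pts_of_reduced_of p hp _ hD1 (hD2 p hp) (d3Statement p hp)
  exact unramified_of_parts_of_criterion h30
    Fermat.Agent.Lib.Cheb.H943.frobeniusDivisionStatement hp hp𝒪 hpS hNS hPTS H
    (fun τ h => hA H.ρ H.residual_absIrr τ h) q hq hqS

end

end Fermat.Agent.S31.H22
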